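import Mathlib

set_option autoImplicit false

namespace Fermat.Agent.S51.Gal

/-- In an `𝔽_p`-vector space with fewer than `p³` elements, a proper nonzero subspace is a line. -/
lemma exists_generator {p : ℕ} [Fact p.Prime] {V : Type*} [AddCommGroup V] [Module (ZMod p) V]
    [Finite V] (hcard : Nat.card V < p ^ 3) (N : Submodule (ZMod p) V) (h0 : N ≠ ⊥) (h1 : N ≠ ⊤) :
    ∃ P ∈ N, P ≠ 0 ∧ ∀ Q ∈ N, ∃ n : ℕ, Q = n • P := by
  classical
  have hp : 1 < p := (Fact.out : p.Prime).one_lt
  haveI : Fintype V := Fintype.ofFinite V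
  haveI : Module.Finite (ZMod p) V := Module.Finite.of_finite
  have hc : Nat.card V = p ^ Module.finrank (ZMod p) V := by
    rw [Nat.card_eq_fintype_card, Module.card_eq_pow_finrank (K := ZMod p) (V := V), ZMod.card]
  have hV : Module.finrank (ZMod p) V < 3 := by
    rw [hc] at hcard
    exact (Nat.pow_lt_pow_iff_right hp).mp hcard
  have hN1 : Module.finrank (ZMod p) N < Module.finrank (ZMod p) V := Submodule.finrank_lt h1
  have hN0 : Module.finrank (ZMod p) N ≠ 0 := by
    intro h
    exact h0 (Submodule.finrank_eq_zero.mp h)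
  have hN : Module.finrank (ZMod p) N = 1 := by omega
  obtain ⟨v, hv, hspan⟩ := finrank_eq_one_iff'.mp hN
  refine ⟨v, v.2, fun h => hv (Subtype.ext h), fun Q hQ => ?_⟩
  obtain ⟨c, hc⟩ := hspan ⟨Q, hQ⟩
  refine ⟨c.val, ?_⟩
  have := congrArg Subtype.val hc
  simp only [Submodule.coe_smul] at this
  rw [← this, ← Nat.cast_smul_eq_nsmul (ZMod p) c.val (v : V), ZMod.natCast_zmod_val]

end Fermat.Agent.S51.Gal
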