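import Fermat.Agent.S51.Gal.Exist

set_option autoImplicit false

namespace Fermat.Agent.S51.Gal

open WeierstrassCurve WeierstrassCurve.Affine Polynomial

variable {F : Type*} [Field F] [CharZero F] [DecidableEq F] (W : Affine F)

omit [CharZero F] in
lemma mem_torsionBy_natCast_iff {n : ℕ} {P : W.Point} :
    P ∈ Submodule.torsionBy ℤ W.Point (n : ℤ) ↔ n • P = 0 := by
  rw [Submodule.mem_torsionBy_iff, natCast_zsmul]

lemma card_torsion_three :
    Finite (Submodule.torsionBy ℤ W.Point ((3 : ℕ) : ℤ)) ∧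
      Nat.card (Submodule.torsionBy ℤ W.Point ((3 : ℕ) : ℤ)) ≤ 9 := by
  have key := finite_and_ncard_le (W := W)
    (((p3 (sA W) (sB W)).roots.toFinset).image (fun X => X - W.b₂ / 12))
    (Submodule.torsionBy ℤ W.Point ((3 : ℕ) : ℤ) : Set W.Point) (by
      intro P hP x hx
      have h3 : 3 • P = 0 := (mem_torsionBy_natCast_iff W).mp hP
      have := psi3_eq_zero_of_three_nsmul hx h3
      rw [psi3_eq_sPsi3, ← eval_p3] at this
      rw [Finset.mem_image]
      refine ⟨x + W.b₂ / 12, ?_, by ring⟩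
      rw [Multiset.mem_toFinset, mem_roots (p3_ne_zero _ _)]
      exact this)
  refine ⟨key.1, ?_⟩
  have h1 : Nat.card (Submodule.torsionBy ℤ W.Point ((3 : ℕ) : ℤ)) =
      (Submodule.torsionBy ℤ W.Point ((3 : ℕ) : ℤ) : Set W.Point).ncard :=
    Nat.card_coe_set_eq _
  rw [h1]
  refine key.2.trans ?_
  have := (Finset.card_image_le (s := (p3 (sA W) (sB W)).roots.toFinset)
    (f := fun X => X - W.b₂ / 12)).trans (card_roots_p3 (sA W) (sB W))
  omega

lemma card_torsion_five :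
    Finite (Submodule.torsionBy ℤ W.Point ((5 : ℕ) : ℤ)) ∧
      Nat.card (Submodule.torsionBy ℤ W.Point ((5 : ℕ) : ℤ)) ≤ 25 := by
  have key := finite_and_ncard_le (W := W)
    (((p5 (sA W) (sB W)).roots.toFinset).image (fun X => X - W.b₂ / 12))
    (Submodule.torsionBy ℤ W.Point ((5 : ℕ) : ℤ) : Set W.Point) (by
      intro P hP x hx
      have h3 : 5 • P = 0 := (mem_torsionBy_natCast_iff W).mp hP
      have := sPsi5_eq_zero_of_five_nsmul hx h3
      rw [← eval_p5] at this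
      rw [Finset.mem_image]
      refine ⟨x + W.b₂ / 12, ?_, by ring⟩
      rw [Multiset.mem_toFinset, mem_roots (p5_ne_zero _ _)]
      exact this)
  refine ⟨key.1, ?_⟩
  have h1 : Nat.card (Submodule.torsionBy ℤ W.Point ((5 : ℕ) : ℤ)) =
      (Submodule.torsionBy ℤ W.Point ((5 : ℕ) : ℤ) : Set W.Point).ncard :=
    Nat.card_coe_set_eq _
  rw [h1]
  refine key.2.trans ?_
  have := (Finset.card_image_le (s := (p5 (sA W) (sB W)).roots.toFinset)
    (f := fun X => X - W.b₂ / 12)).trans (card_roots_p5 (sA W) (sB W))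
  omega

lemma nontrivial_torsion_three [IsAlgClosed F] [W.IsElliptic] :
    Nontrivial (Submodule.torsionBy ℤ W.Point ((3 : ℕ) : ℤ)) := by
  obtain ⟨X, hX⟩ := exists_root_p3 (sA W) (sB W)
  obtain ⟨P, hP⟩ := exists_hasX_of_isElliptic (W := W) (X - W.b₂ / 12)
  have h3 : 3 • P = 0 := three_nsmul_of_psi3_eq_zero hP (by
    rw [psi3_eq_sPsi3, sub_add_cancel]; exact hX)
  refine ⟨⟨⟨P, (mem_torsionBy_natCast_iff W).mpr h3⟩, 0, ?_⟩⟩
  intro h
  exact hP.ne_zero (congrArg Subtype.val h)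

lemma nontrivial_torsion_five [IsAlgClosed F] [W.IsElliptic] :
    Nontrivial (Submodule.torsionBy ℤ W.Point ((5 : ℕ) : ℤ)) := by
  obtain ⟨X, hX⟩ := exists_root_p5 (sA W) (sB W)
  obtain ⟨P, hP⟩ := exists_hasX_of_isElliptic (W := W) (X - W.b₂ / 12)
  have h3 : 5 • P = 0 := five_nsmul_of_sPsi5_eq_zero hP (by
    rw [sub_add_cancel]; exact hX)
  refine ⟨⟨⟨P, (mem_torsionBy_natCast_iff W).mpr h3⟩, 0, ?_⟩⟩
  intro h
  exact hP.ne_zero (congrArg Subtype.val h)

end Fermat.Agent.S51.Gal
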