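import Mathlib.AlgebraicGeometry.EllipticCurve.Affine.Point
import Mathlib.AlgebraicGeometry.EllipticCurve.Affine.AddSubMap

set_option autoImplicit false

namespace Fermat.Agent.S51.Gal

open WeierstrassCurve WeierstrassCurve.Affine

variable {F : Type*} [Field F] (W : Affine F)

/-- `ψ₂² = 4x³ + b₂x² + 2b₄x + b₆`. -/
def psi2Sq (x : F) : F := 4 * x ^ 3 + W.b₂ * x ^ 2 + 2 * W.b₄ * x + W.b₆

/-- numerator of the duplication map. -/
def phi2 (x : F) : F := x ^ 4 - W.b₄ * x ^ 2 - 2 * W.b₆ * x - W.b₈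

def psi3 (x : F) : F := 3 * x ^ 4 + W.b₂ * x ^ 3 + 3 * W.b₄ * x ^ 2 + 3 * W.b₆ * x + W.b₈

lemma psi3_eq (x : F) : psi3 W x = x * psi2Sq W x - phi2 W x := by
  simp only [psi3, psi2Sq, phi2]; ring

variable {W}

lemma sub_negY_sq {x y : F} (h : W.Equation x y) :
    (y - W.negY x y) ^ 2 = psi2Sq W x := by
  rw [Affine.equation_iff] at h
  simp only [negY, psi2Sq, WeierstrassCurve.b₂, WeierstrassCurve.b₄, WeierstrassCurve.b₆]
  linear_combination 4 * h

lemma addX_self_mul [DecidableEq F] {x y : F} (h : W.Equation x y) (hy : y ≠ W.negY x y) :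
    W.addX x x (W.slope x x y y) * psi2Sq W x = phi2 W x := by
  have hne : y - W.negY x y ≠ 0 := sub_ne_zero.mpr hy
  rw [← sub_negY_sq h, slope_of_Y_ne rfl hy]
  rw [Affine.equation_iff] at h
  simp only [addX, phi2, WeierstrassCurve.b₄, WeierstrassCurve.b₆, WeierstrassCurve.b₈]
  field_simp
  simp only [negY]
  linear_combination (-(W.a₁ ^ 2 + 4 * W.a₂ + 8 * x)) * h

/-- `phi2` and `psi2Sq` have no common zero on an elliptic curve. -/
lemma phi2_ne_zero_of_psi2Sq_eq_zero [W.IsElliptic] {x : F} (h : psi2Sq W x = 0) :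
    phi2 W x ≠ 0 := by
  intro h'
  have key := WeierstrassCurve.addSubMap_ne_zero W (x := ![x ^ 2, 2 * x, 1])
    (fun h0 => by simpa using congrFun h0 2)
  apply key
  funext i
  fin_cases i
  · simp only [addSubMap]
    simp [phi2] at h' ⊢
    linear_combination h'
  · simp only [addSubMap]
    simp [psi2Sq] at h ⊢
    linear_combination h
  · simp only [addSubMap]
    simp
    ring

/-- `P` is an affine point with `x`-coordinate `x`. -/
def HasX (P : W.Point) (x : F) : Prop := ∃ (y : F) (h : W.Nonsingular x y), P = .some x y h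

namespace HasX

lemma ne_zero {P : W.Point} {x : F} (h : HasX P x) : P ≠ 0 := by
  obtain ⟨y, hy, rfl⟩ := h
  exact Point.some_ne_zero hy

lemma unique {P : W.Point} {x x' : F} (h : HasX P x) (h' : HasX P x') : x = x' := by
  obtain ⟨y, hy, rfl⟩ := h
  obtain ⟨y', hy', h2⟩ := h'
  exact (Point.some.inj h2).1

lemma neg {P : W.Point} {x : F} (h : HasX P x) : HasX (-P) x := by
  obtain ⟨y, hy, rfl⟩ := h
  exact ⟨_, _, Point.neg_some hy⟩

lemma eq_or_eq_neg {P Q : W.Point} {x : F} (h : HasX P x) (h' : HasX Q x) : P = Q ∨ P = -Q := by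
  obtain ⟨y, hy, rfl⟩ := h
  obtain ⟨y', hy', rfl⟩ := h'
  exact Point.X_eq_iff.mp rfl

variable [DecidableEq F]

lemma add_self_eq_zero_iff {P : W.Point} {x : F} (h : HasX P x) :
    P + P = 0 ↔ psi2Sq W x = 0 := by
  obtain ⟨y, hy, rfl⟩ := h
  rw [← sub_negY_sq hy.1, sq_eq_zero_iff, sub_eq_zero]
  constructor
  · intro h0
    by_contra hne
    rw [Point.add_self_of_Y_ne hne] at h0
    exact Point.some_ne_zero _ h0
  · intro h0
    exact Point.add_self_of_Y_eq h0

lemma add_self {P : W.Point} {x : F} (h : HasX P x) (hx : psi2Sq W x ≠ 0) :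
    HasX (P + P) (phi2 W x / psi2Sq W x) := by
  obtain ⟨y, hy, rfl⟩ := h
  have hne : y ≠ W.negY x y := by
    intro h0
    apply hx
    rw [← sub_negY_sq hy.1, sq_eq_zero_iff, sub_eq_zero]
    exact h0
  rw [Point.add_self_of_Y_ne hne, ← eq_div_of_mul_eq hx (addX_self_mul hy.1 hne)]
  exact ⟨_, _, rfl⟩

end HasX

lemma exists_hasX {P : W.Point} (h : P ≠ 0) : ∃ x, HasX P x := by
  cases P with
  | zero => exact absurd rfl h
  | some x y hy => exact ⟨x, y, hy, rfl⟩

end Fermat.Agent.S51.Gal
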