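import Fermat.Agent.S51.Gal.Torsion

set_option autoImplicit false

namespace Fermat.Agent.S51.Gal

open WeierstrassCurve WeierstrassCurve.Affine Polynomial

section Psi5

variable {F : Type*} [Field F] [CharZero F] [DecidableEq F] {W : Affine F}

lemma sPsi5_eq_zero_of_five_nsmul {P : W.Point} {x₁ : F} (hP : HasX P x₁) (h : 5 • P = 0) :
    sPsi5 (sA W) (sB W) (x₁ + W.b₂ / 12) = 0 := by
  obtain ⟨x₂, -, hne, h1, h2, e1, e2⟩ := five_torsion_data hP h
  rw [dup_rel_iff] at e1 e2
  rw [psi2Sq_eq_sD] at h1 h2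
  have key := sN_of_dup e1
  rw [e2, sub_self, zero_mul] at key
  have h3 : sPsi3 (sA W) (sB W) (x₁ + W.b₂ / 12) ≠ 0 := by
    rw [sPsi3_eq, e1, ← sub_mul]
    refine mul_ne_zero ?_ h1
    intro h0
    apply hne
    linear_combination h0
  have := neg_eq_zero.mp key.symm
  exact (mul_eq_zero.mp this).resolve_left h3

lemma five_nsmul_of_sPsi5_eq_zero [W.IsElliptic] {P : W.Point} {x₁ : F} (hP : HasX P x₁)
    (h : sPsi5 (sA W) (sB W) (x₁ + W.b₂ / 12) = 0) : 5 • P = 0 := by
  set A := sA W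
  set B := sB W
  set X₁ := x₁ + W.b₂ / 12 with hX₁
  have hD1 : sD A B X₁ ≠ 0 := by
    intro h0
    have h3 : sPsi3 A B X₁ = 0 := by
      rw [sPsi5, h0] at h
      have : sPsi3 A B X₁ ^ 3 = 0 := by linear_combination -h
      exact pow_eq_zero_iff (by norm_num) |>.mp this
    have hp : psi2Sq W x₁ = 0 := by rw [psi2Sq_eq_sD]; exact h0
    apply phi2_ne_zero_of_psi2Sq_eq_zero hp
    rw [phi2_eq_sN]
    rw [sPsi3_eq] at h3
    show sN A B X₁ - W.b₂ / 12 * sD A B X₁ = 0
    rw [h0] at h3 ⊢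
    linear_combination -h3
  set X₂ := sN A B X₁ / sD A B X₁ with hX₂
  have e1 : sN A B X₁ = X₂ * sD A B X₁ := by rw [hX₂, div_mul_cancel₀ _ hD1]
  have hD := sD_of_dup e1
  have h3 : sPsi3 A B X₁ ≠ 0 := by
    intro h0
    have h4 : sPsi4 A B X₁ = 0 := by
      rw [sPsi5, h0] at h
      have : sPsi4 A B X₁ * sD A B X₁ ^ 2 = 0 := by linear_combination h
      exact (mul_eq_zero.mp this).resolve_right (pow_ne_zero _ hD1)
    have hxx : X₂ = X₁ := by
      rw [sPsi3_eq, e1, ← sub_mul] at h0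
      have := (mul_eq_zero.mp h0).resolve_right hD1
      linear_combination -this
    rw [h4, hxx] at hD
    have : sD A B X₁ ^ 4 = 0 := by linear_combination hD
    exact hD1 (pow_eq_zero_iff (by norm_num) |>.mp this)
  have h4 : sPsi4 A B X₁ ≠ 0 := by
    intro h0
    rw [sPsi5, h0] at h
    have : sPsi3 A B X₁ ^ 3 = 0 := by linear_combination -h
    exact h3 (pow_eq_zero_iff (by norm_num) |>.mp this)
  have hD2 : sD A B X₂ ≠ 0 := by
    intro h0
    rw [h0, zero_mul] at hD
    exact h4 (pow_eq_zero_iff (by norm_num) |>.mp hD.symm)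
  have e2 : sN A B X₂ = X₁ * sD A B X₂ := by
    have key := sN_of_dup e1
    rw [h, mul_zero, neg_zero] at key
    have := (mul_eq_zero.mp key).resolve_right (pow_ne_zero _ hD1)
    linear_combination this
  have hne : X₁ ≠ X₂ := by
    intro h0
    apply h3
    rw [sPsi3_eq, e1, ← h0]; ring
  have hx2 : X₂ = (X₂ - W.b₂ / 12) + W.b₂ / 12 := by ring
  refine five_nsmul_of_data (x₂ := X₂ - W.b₂ / 12) hP ?_ ?_ ?_ ?_ ?_
  · intro h0
    apply hne
    rw [hX₁, h0]; ring
  · rw [psi2Sq_eq_sD]; exact hD1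
  · rw [psi2Sq_eq_sD, ← hx2]; exact hD2
  · rw [dup_rel_iff, ← hx2]; exact e1
  · rw [dup_rel_iff, ← hx2]; exact e2

end Psi5

section AlgClosed

variable {F : Type*} [Field F] [CharZero F] [IsAlgClosed F] {W : Affine F}

lemma exists_hasX_of_isElliptic [W.IsElliptic] (x : F) : ∃ P : W.Point, HasX P x := by
  obtain ⟨z, hz⟩ := IsAlgClosed.exists_pow_nat_eq (psi2Sq W x) (n := 2) (by norm_num)
  have heq : W.Equation x ((z - W.a₁ * x - W.a₃) / 2) := by
    rw [Affine.equation_iff]
    simp only [psi2Sq, WeierstrassCurve.b₂, WeierstrassCurve.b₄, WeierstrassCurve.b₆] at hz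
    field_simp
    linear_combination hz
  exact ⟨.some x _ (Affine.equation_iff_nonsingular.mp heq), _, _, rfl⟩

end AlgClosed

section Polys

variable {F : Type*} [Field F] [CharZero F] (A B : F)

/-- `sPsi3` as a polynomial. -/
noncomputable def p3 : F[X] :=
  C 3 * X ^ 4 + C (6 * A) * X ^ 2 + C (12 * B) * X + C (- A ^ 2)

/-- `sPsi5` as a polynomial. -/
noncomputable def p5 : F[X] :=
  C 5 * X ^ 12 + C (62 * A) * X ^ 10 + C (380 * B) * X ^ 9 + C (-105 * A ^ 2) * X ^ 8
    + C (240 * A * B) * X ^ 7 + C (-300 * A ^ 3 - 240 * B ^ 2) * X ^ 6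
    + C (-696 * A ^ 2 * B) * X ^ 5 + C (-125 * A ^ 4 - 1920 * A * B ^ 2) * X ^ 4
    + C (-80 * A ^ 3 * B - 1600 * B ^ 3) * X ^ 3 + C (-50 * A ^ 5 - 240 * A ^ 2 * B ^ 2) * X ^ 2
    + C (-100 * A ^ 4 * B - 640 * A * B ^ 3) * X + C (A ^ 6 - 32 * A ^ 3 * B ^ 2 - 256 * B ^ 4)

omit [CharZero F] in
lemma eval_p3 (x : F) : (p3 A B).eval x = sPsi3 A B x := by
  simp only [p3, sPsi3, eval_add, eval_mul, eval_C, eval_pow, eval_X]; ring

omit [CharZero F] in
lemma eval_p5 (x : F) : (p5 A B).eval x = sPsi5 A B x := by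
  simp only [p5, sPsi5, sPsi4, sPsi3, sD, eval_add, eval_mul, eval_C, eval_pow, eval_X]; ring

lemma natDegree_p3 : (p3 A B).natDegree = 4 := by
  unfold p3
  compute_degree!

lemma natDegree_p5 : (p5 A B).natDegree = 12 := by
  unfold p5
  compute_degree!

lemma p3_ne_zero : p3 A B ≠ 0 := by
  intro h
  have := natDegree_p3 A B
  rw [h] at this
  simp at this

lemma p5_ne_zero : p5 A B ≠ 0 := by
  intro h
  have := natDegree_p5 A B
  rw [h] at this
  simp at this

lemma card_roots_p3 [DecidableEq F] : (p3 A B).roots.toFinset.card ≤ 4 :=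
  (Multiset.toFinset_card_le _).trans ((card_roots' _).trans (natDegree_p3 A B).le)

lemma card_roots_p5 [DecidableEq F] : (p5 A B).roots.toFinset.card ≤ 12 :=
  (Multiset.toFinset_card_le _).trans ((card_roots' _).trans (natDegree_p5 A B).le)

lemma exists_root_p3 [IsAlgClosed F] : ∃ x, sPsi3 A B x = 0 := by
  obtain ⟨x, hx⟩ := IsAlgClosed.exists_root (p3 A B) (by
    rw [degree_eq_natDegree (p3_ne_zero A B), natDegree_p3]; norm_num)
  exact ⟨x, by rw [← eval_p3]; exact hx⟩

lemma exists_root_p5 [IsAlgClosed F] : ∃ x, sPsi5 A B x = 0 := by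
  obtain ⟨x, hx⟩ := IsAlgClosed.exists_root (p5 A B) (by
    rw [degree_eq_natDegree (p5_ne_zero A B), natDegree_p5]; norm_num)
  exact ⟨x, by rw [← eval_p5]; exact hx⟩

end Polys

section Count

variable {F : Type*} [Field F] {W : Affine F}

open Classical in
/-- a set of points whose `x`-coordinates lie in a finite set `R` has at most `2|R|+1` elements. -/
lemma finite_and_ncard_le (R : Finset F) (S : Set W.Point)
    (hS : ∀ P ∈ S, ∀ x, HasX P x → x ∈ R) : S.Finite ∧ S.ncard ≤ 2 * R.card + 1 := by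
  let g : F → W.Point := fun x => if h : ∃ P : W.Point, HasX P x then h.choose else 0
  have hg : ∀ x P, HasX P x → P = g x ∨ P = - g x := by
    intro x P hP
    have h : ∃ P : W.Point, HasX P x := ⟨P, hP⟩
    have : g x = h.choose := dif_pos h
    rw [this]
    exact hP.eq_or_eq_neg h.choose_spec
  let T : Finset W.Point := insert 0 (R.image g ∪ R.image (fun x => - g x))
  have hsub : S ⊆ (T : Set W.Point) := by
    intro P hP
    by_cases h0 : P = 0
    · simp [T, h0]
    · obtain ⟨x, hx⟩ := exists_hasX h0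
      have hxR := hS P hP x hx
      rcases hg x P hx with h | h
      · simp only [T, Finset.coe_insert, Finset.coe_union, Finset.coe_image]
        right; left; exact ⟨x, hxR, h.symm⟩
      · simp only [T, Finset.coe_insert, Finset.coe_union, Finset.coe_image]
        right; right; exact ⟨x, hxR, h.symm⟩
  refine ⟨T.finite_toSet.subset hsub, ?_⟩
  calc S.ncard ≤ (T : Set W.Point).ncard := Set.ncard_le_ncard hsub T.finite_toSet
    _ = T.card := Set.ncard_coe_finset T
    _ ≤ (R.image g ∪ R.image (fun x => - g x)).card + 1 := Finset.card_insert_le _ _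
    _ ≤ (R.image g).card + (R.image (fun x => - g x)).card + 1 := by
        gcongr; exact Finset.card_union_le _ _
    _ ≤ R.card + R.card + 1 := by
        gcongr <;> exact Finset.card_image_le
    _ = 2 * R.card + 1 := by ring

end Count

end Fermat.Agent.S51.Gal
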