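import Fermat.Agent.S51.Gal.Dup
import Mathlib.FieldTheory.IsAlgClosed.Basic
import Mathlib.Tactic

set_option autoImplicit false

namespace Fermat.Agent.S51.Gal

open WeierstrassCurve WeierstrassCurve.Affine

section Short

variable {F : Type*} [Field F]

/-- short-form `ψ₂²`. -/
def sD (A B x : F) : F := 4 * (x ^ 3 + A * x + B)
/-- short-form `φ₂`. -/
def sN (A B x : F) : F := x ^ 4 - 2 * A * x ^ 2 - 8 * B * x + A ^ 2
def sPsi3 (A B x : F) : F := 3 * x ^ 4 + 6 * A * x ^ 2 + 12 * B * x - A ^ 2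
def sPsi4 (A B x : F) : F :=
  2 * x ^ 6 + 10 * A * x ^ 4 + 40 * B * x ^ 3 - 10 * A ^ 2 * x ^ 2 - 8 * A * B * x - 2 * A ^ 3
    - 16 * B ^ 2
def sPsi5 (A B x : F) : F := sPsi4 A B x * sD A B x ^ 2 - sPsi3 A B x ^ 3

lemma sPsi3_eq (A B x : F) : sPsi3 A B x = x * sD A B x - sN A B x := by
  simp only [sPsi3, sD, sN]; ring

/-- `ψ₂²(x(2P)) ψ₂²(x(P))³ = preΨ₄²`. -/
lemma sD_dup (A B x : F) :
    4 * sN A B x ^ 3 + 4 * A * sN A B x * sD A B x ^ 2 + 4 * B * sD A B x ^ 3
      = sPsi4 A B x ^ 2 := by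
  simp only [sPsi4, sD, sN]; ring

lemma sN_dup (A B x : F) :
    sN A B x ^ 4 - 2 * A * sN A B x ^ 2 * sD A B x ^ 2 - 8 * B * sN A B x * sD A B x ^ 3
        + A ^ 2 * sD A B x ^ 4 - x * sD A B x * sPsi4 A B x ^ 2
      = - (sPsi3 A B x * sPsi5 A B x) := by
  simp only [sPsi5, sPsi4, sPsi3, sD, sN]; ring

/-- value of `sD` at `x₂ = sN x / sD x`. -/
lemma sD_of_dup {A B x x₂ : F} (h : sN A B x = x₂ * sD A B x) :
    sD A B x₂ * sD A B x ^ 3 = sPsi4 A B x ^ 2 := by
  rw [← sD_dup, h]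
  simp only [sD]; ring

lemma sN_of_dup {A B x x₂ : F} (h : sN A B x = x₂ * sD A B x) :
    (sN A B x₂ - x * sD A B x₂) * sD A B x ^ 4 = - (sPsi3 A B x * sPsi5 A B x) := by
  have h1 : sD A B x₂ * sD A B x ^ 3 = sPsi4 A B x ^ 2 := by
    rw [← sD_dup, h]
    simp only [sD]; ring
  rw [← sN_dup, ← h1, h]
  simp only [sN, sD]; ring

end Short

section Bridge

variable {F : Type*} [Field F] [CharZero F] (W : Affine F)

def sA : F := - W.c₄ / 48
def sB : F := - W.c₆ / 864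

lemma psi2Sq_eq_sD (x : F) : psi2Sq W x = sD (sA W) (sB W) (x + W.b₂ / 12) := by
  simp only [psi2Sq, sD, sA, sB, WeierstrassCurve.c₄, WeierstrassCurve.c₆]
  ring

lemma phi2_eq_sN (x : F) :
    phi2 W x = sN (sA W) (sB W) (x + W.b₂ / 12)
      - W.b₂ / 12 * sD (sA W) (sB W) (x + W.b₂ / 12) := by
  simp only [phi2, sN, sD, sA, sB, WeierstrassCurve.c₄, WeierstrassCurve.c₆]
  linear_combination (-1/4 : F) * W.b_relation

lemma psi3_eq_sPsi3 (x : F) : psi3 W x = sPsi3 (sA W) (sB W) (x + W.b₂ / 12) := by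
  rw [psi3_eq, sPsi3_eq, psi2Sq_eq_sD, phi2_eq_sN]; ring

/-- the duplication relation in the general model is the one in the short model, shifted. -/
lemma dup_rel_iff (x x₂ : F) :
    phi2 W x = x₂ * psi2Sq W x ↔
      sN (sA W) (sB W) (x + W.b₂ / 12)
        = (x₂ + W.b₂ / 12) * sD (sA W) (sB W) (x + W.b₂ / 12) := by
  rw [psi2Sq_eq_sD, phi2_eq_sN]
  constructor <;> intro h <;> linear_combination h

end Bridge

section Tors

variable {F : Type*} [Field F] [DecidableEq F] {W : Affine F}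

lemma psi3_eq_zero_of_three_nsmul {P : W.Point} {x : F} (hP : HasX P x) (h : 3 • P = 0) :
    psi3 W x = 0 := by
  have h2 : P + P = -P := by
    have : (3 : ℕ) • P = P + P + P := by abel
    rw [this] at h
    exact eq_neg_of_add_eq_zero_left h
  have hne : psi2Sq W x ≠ 0 := by
    intro h0
    have := hP.add_self_eq_zero_iff.mpr h0
    rw [h2, neg_eq_zero] at this
    exact hP.ne_zero this
  have hx := (hP.add_self hne)
  rw [h2] at hx
  have := hx.unique hP.neg
  rw [psi3_eq]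
  rw [div_eq_iff hne] at this
  rw [this]; ring

lemma three_nsmul_of_psi3_eq_zero [W.IsElliptic] {P : W.Point} {x : F} (hP : HasX P x)
    (h : psi3 W x = 0) : 3 • P = 0 := by
  have hne : psi2Sq W x ≠ 0 := by
    intro h0
    apply phi2_ne_zero_of_psi2Sq_eq_zero h0
    rw [psi3_eq, h0] at h
    linear_combination -h
  have hx := hP.add_self hne
  have hxx : phi2 W x / psi2Sq W x = x := by
    rw [div_eq_iff hne]
    rw [psi3_eq] at h
    linear_combination -h
  rw [hxx] at hx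
  have h3 : (3 : ℕ) • P = P + P + P := by abel
  rcases hx.eq_or_eq_neg hP with h1 | h1
  · exact absurd (by simpa using h1) hP.ne_zero
  · rw [h3, h1]; simp

/-- structure of a nonzero `5`-torsion point in terms of `x`-coordinates. -/
lemma five_torsion_data {P : W.Point} {x₁ : F} (hP : HasX P x₁) (h : 5 • P = 0) :
    ∃ x₂, HasX (P + P) x₂ ∧ x₁ ≠ x₂ ∧ psi2Sq W x₁ ≠ 0 ∧ psi2Sq W x₂ ≠ 0 ∧
      phi2 W x₁ = x₂ * psi2Sq W x₁ ∧ phi2 W x₂ = x₁ * psi2Sq W x₂ := by
  have h5 : (5 : ℕ) • P = (P + P) + (P + P) + P := by abel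
  rw [h5] at h
  have h4 : (P + P) + (P + P) = -P := eq_neg_of_add_eq_zero_left h
  have hne1 : psi2Sq W x₁ ≠ 0 := by
    intro h0
    have h2 := hP.add_self_eq_zero_iff.mpr h0
    rw [h2] at h4
    apply hP.ne_zero
    simpa using h4.symm
  have hx2 := hP.add_self hne1
  set x₂ := phi2 W x₁ / psi2Sq W x₁ with hx₂
  have hne2 : psi2Sq W x₂ ≠ 0 := by
    intro h0
    have h2 := hx2.add_self_eq_zero_iff.mpr h0
    rw [h2] at h4
    apply hP.ne_zero
    simpa using h4.symm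
  have hx4 := hx2.add_self hne2
  rw [h4] at hx4
  have e4 := hx4.unique hP.neg
  refine ⟨x₂, hx2, ?_, hne1, hne2, ?_, ?_⟩
  · intro hxx
    rw [← hxx] at hx2
    rcases hx2.eq_or_eq_neg hP with h1 | h1
    · exact hP.ne_zero (by simpa using h1)
    · rw [h1] at h4
      apply hP.ne_zero
      have : -P + -P = -P := h4
      simpa using this
  · rw [hx₂, div_mul_cancel₀ _ hne1]
  · rw [div_eq_iff hne2] at e4
    exact e4

/-- converse: a `2`-cycle of the duplication map gives a `5`-torsion point. -/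
lemma five_nsmul_of_data {P : W.Point} {x₁ x₂ : F} (hP : HasX P x₁) (hne : x₁ ≠ x₂)
    (h1 : psi2Sq W x₁ ≠ 0) (h2 : psi2Sq W x₂ ≠ 0) (e1 : phi2 W x₁ = x₂ * psi2Sq W x₁)
    (e2 : phi2 W x₂ = x₁ * psi2Sq W x₂) : 5 • P = 0 := by
  have hx2 := hP.add_self h1
  rw [e1, mul_div_cancel_right₀ _ h1] at hx2
  have hx4 := hx2.add_self h2
  rw [e2, mul_div_cancel_right₀ _ h2] at hx4
  have h5 : (5 : ℕ) • P = (P + P) + (P + P) + P := by abel
  rcases hx4.eq_or_eq_neg hP with h4 | h4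
  · exfalso
    -- `3P = 0`, so `2P = -P`
    have h3 : P + P = -P := by
      have : P + P + P = 0 := by
        have h' : (P + P) + (P + P) - P = P + P + P := by abel
        rw [← h', h4]; simp
      exact eq_neg_of_add_eq_zero_left this
    rw [h3] at hx2
    exact hne (hP.neg.unique hx2)
  · rw [h5, h4]; simp

end Tors

end Fermat.Agent.S51.Gal
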